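import Mathlib
import Fermat.Prelude.Def_FLTPrelim_FreyPackage
import Fermat.Prelude.Def_FLTPrelim_GaloisRep
import Fermat.Prelude.Def_FLTPrelim_Modularity
import Fermat.Prelude.Def_FLTPrelim_ModularRep
import Fermat.Prelude.Def_FLTPrelim_Ramification
import Fermat.Prelude.Def_FLTPrelim_CofixedLine

/-!
# S03 glue

`FreyPackage → False` from the four inputs
* S04 (Frey curve is modular),
* S09 (Mazur: the mod-p representation of the Frey curve is irreducible),
* S45 (modular + irreducible ⇒ nonzero weight-2 cusp form on Γ₀(2)),
* S07 (no nonzero weight-2 cusp form on Γ₀(2)).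

Everything here is stated with the inputs as hypotheses, so this file builds on its own.
-/

set_option autoImplicit false
open WeierstrassCurve WeierstrassCurve.Affine WeierstrassCurve.Affine.Point
open CuspForm ModularFormClass UpperHalfPlane

namespace Fermat.Agent.S03

/-- The glue: the four inputs (for one package `P`) give a contradiction. -/
theorem no_frey_package_of_inputs (P : FreyPackage)
    (h04 : P.freyCurve.IsModular)
    (h09 : GaloisRepIsIrreducible (K := AlgebraicClosure ℚ) ℚ P.freyCurve P.p)
    (h45 : P.freyCurve.IsModular →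
      GaloisRepIsIrreducible (K := AlgebraicClosure ℚ) ℚ P.freyCurve P.p →
      ∃ f : CuspForm (CongruenceSubgroup.Gamma0 2) 2, f ≠ 0)
    (h07 : ∀ f : CuspForm (CongruenceSubgroup.Gamma0 2) 2, f = 0) : False := by
  obtain ⟨f, hf⟩ := h45 h04 h09
  exact hf (h07 f)

end Fermat.Agent.S03
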